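import Mathlib

/-!
# Row S56, tangent bound (TB) — the abstract Greenberg–Wiles inequalities (helper831)

Pure linear algebra over a field `k`, Mathlib only.  No perfectness of any pairing is used, only
"reciprocity" (`B (loc x) (loc' y) = 0`).

* `perp B L` — the annihilator in `P'` of `L ≤ P` under a pairing `B : P → P' → k`.
* `gw_abstract` — for `loc : H → P`, `loc' : H' → P'` with `B (loc x) (loc' y) = 0`:
  `dim loc⁻¹(L) + dim H' ≤ dim ker loc + dim L + dim loc'⁻¹(L^⊥)`.
  (Selmer group `loc⁻¹ L`, dual Selmer group `loc'⁻¹ (L^⊥)`, `ker loc = Ш¹`.)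
* `comparison_abstract` — for `u : X → U` and an injective `lam : D → Dual U` with
  `lam d (u x) = 0`:  `dim X + dim D ≤ dim ker u + dim U`.
  (`X = t_Q`, `ker u = t_∅`, `U = ⊕_{q ∈ Q} H¹(G_q)/H¹_ur`, `D` = dual Selmer frame killed by `Q`.)
* `tangent_le_card` — the bookkeeping: `dim X₀ ≤ dim D`, `dim U ≤ n` ⟹ `dim X ≤ n`.
-/

set_option autoImplicit false

open Module

namespace Fermat.Agent.S56.H831

variable {k : Type*} [Field k]

section Perp

variable {P P' : Type*} [AddCommGroup P] [Module k P] [AddCommGroup P'] [Module k P']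

/-- The annihilator in `P'` of a subspace `L ≤ P` under the pairing `B`. -/
def perp (B : P →ₗ[k] P' →ₗ[k] k) (L : Submodule k P) : Submodule k P' where
  carrier := {y | ∀ x ∈ L, B x y = 0}
  add_mem' := fun {a b} ha hb x hx => by
    rw [map_add, ha x hx, hb x hx, add_zero]
  zero_mem' := fun x _ => by rw [map_zero]
  smul_mem' := fun c y hy x hx => by
    rw [map_smul, hy x hx, smul_zero]

@[simp] theorem mem_perp {B : P →ₗ[k] P' →ₗ[k] k} {L : Submodule k P} {y : P'} :
    y ∈ perp B L ↔ ∀ x ∈ L, B x y = 0 := Iff.rfl

theorem perp_antitone (B : P →ₗ[k] P' →ₗ[k] k) {L L' : Submodule k P} (h : L ≤ L') :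
    perp B L' ≤ perp B L := fun _ hy x hx => hy x (h hx)

end Perp

section GW

variable {H H' P P' : Type*} [AddCommGroup H] [Module k H] [AddCommGroup H'] [Module k H']
  [AddCommGroup P] [Module k P] [AddCommGroup P'] [Module k P']

/-- The restriction-and-pair map `H' → Dual L`, `y ↦ (x ↦ B x (loc' y))`. -/
def pairRestrict (B : P →ₗ[k] P' →ₗ[k] k) (loc' : H' →ₗ[k] P') (L : Submodule k P) :
    H' →ₗ[k] Dual k L where
  toFun y := (B.flip (loc' y)).comp L.subtype
  map_add' a b := by
    ext x
    simp
  map_smul' c a := by
    ext x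
    simp

@[simp] theorem pairRestrict_apply (B : P →ₗ[k] P' →ₗ[k] k) (loc' : H' →ₗ[k] P')
    (L : Submodule k P) (y : H') (x : L) :
    pairRestrict B loc' L y x = B (x : P) (loc' y) := rfl

theorem ker_pairRestrict (B : P →ₗ[k] P' →ₗ[k] k) (loc' : H' →ₗ[k] P') (L : Submodule k P) :
    LinearMap.ker (pairRestrict B loc' L) = (perp B L).comap loc' := by
  ext y
  simp only [LinearMap.mem_ker, Submodule.mem_comap, mem_perp]
  constructor
  · intro h x hx
    have := LinearMap.congr_fun h ⟨x, hx⟩
    simpa using this
  · intro h
    ext x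
    simpa using h x x.2

/-- A space with finite-dimensional kernel and range is finite-dimensional. -/
theorem finiteDimensional_of_ker_range {X Y : Type*} [AddCommGroup X] [Module k X]
    [AddCommGroup Y] [Module k Y] (f : X →ₗ[k] Y) [FiniteDimensional k (LinearMap.ker f)]
    [FiniteDimensional k (LinearMap.range f)] : FiniteDimensional k X := by
  have : Module.Finite k (X ⧸ LinearMap.ker f) :=
    Module.Finite.equiv f.quotKerEquivRange.symm
  exact Module.Finite.of_submodule_quotient (LinearMap.ker f)

/-- **Abstract Greenberg–Wiles inequality** (reciprocity only, no perfectness):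
`dim loc⁻¹(L) + dim H' ≤ dim ker loc + dim L + dim loc'⁻¹(L^⊥)`. -/
theorem gw_abstract [FiniteDimensional k H']
    (loc : H →ₗ[k] P) (loc' : H' →ₗ[k] P') (B : P →ₗ[k] P' →ₗ[k] k)
    (hrec : ∀ x y, B (loc x) (loc' y) = 0)
    (L : Submodule k P) [FiniteDimensional k L] [FiniteDimensional k (LinearMap.ker loc)] :
    finrank k (L.comap loc) + finrank k H'
      ≤ finrank k (LinearMap.ker loc) + finrank k L + finrank k ((perp B L).comap loc') := by
  classical
  -- the restriction of `loc` to the Selmer group, with values in `L`
  let f : L.comap loc →ₗ[k] L := loc.restrict (p := L.comap loc) (q := L) (fun x hx => hx)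
  have hf : ∀ x : L.comap loc, ((f x : L) : P) = loc (x : H) := fun x => rfl
  -- its kernel injects into `ker loc`
  have hmem : ∀ x : LinearMap.ker f, ((x : L.comap loc) : H) ∈ LinearMap.ker loc := by
    intro x
    have hx : f (x : L.comap loc) = 0 := x.2
    have h2 := congrArg (Subtype.val : L → P) hx
    rw [hf] at h2
    rw [LinearMap.mem_ker, h2]
    rfl
  let e : LinearMap.ker f →ₗ[k] LinearMap.ker loc :=
    { toFun := fun x => ⟨((x : L.comap loc) : H), hmem x⟩
      map_add' := fun a b => rfl
      map_smul' := fun c a => rfl }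
  have he : Function.Injective e := by
    intro a b hab
    have h2 : (((a : L.comap loc) : H)) = (((b : L.comap loc) : H)) :=
      congrArg (Subtype.val : LinearMap.ker loc → H) hab
    exact Subtype.ext (Subtype.ext h2)
  have hker : finrank k (LinearMap.ker f) ≤ finrank k (LinearMap.ker loc) :=
    LinearMap.finrank_le_finrank_of_injective he
  have hfin1 : FiniteDimensional k (LinearMap.ker f) := FiniteDimensional.of_injective e he
  have hfin2 : FiniteDimensional k (L.comap loc) := finiteDimensional_of_ker_range f
  have hrn : finrank k (LinearMap.range f) + finrank k (LinearMap.ker f)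
      = finrank k (L.comap loc) := LinearMap.finrank_range_add_finrank_ker f
  -- the pairing map `ψ : H' → Dual L`
  let ψ : H' →ₗ[k] Dual k L := pairRestrict B loc' L
  have hψ : finrank k (LinearMap.range ψ) + finrank k (LinearMap.ker ψ) = finrank k H' :=
    LinearMap.finrank_range_add_finrank_ker ψ
  have hkerψ : finrank k (LinearMap.ker ψ) = finrank k ((perp B L).comap loc') := by
    rw [ker_pairRestrict]
  -- `range ψ` annihilates `range f`
  have hle : LinearMap.range ψ ≤ (LinearMap.range f).dualAnnihilator := by
    rintro _ ⟨y, rfl⟩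
    rw [Submodule.mem_dualAnnihilator]
    rintro _ ⟨x, rfl⟩
    change B ((f x : L) : P) (loc' y) = 0
    rw [hf]
    exact hrec _ _
  have hann : finrank k (LinearMap.range f) + finrank k (LinearMap.range f).dualAnnihilator
      = finrank k L := Subspace.finrank_add_finrank_dualAnnihilator_eq _
  have hmono : finrank k (LinearMap.range ψ) ≤ finrank k (LinearMap.range f).dualAnnihilator :=
    Submodule.finrank_mono hle
  omega

/-- The minimal Greenberg–Wiles inequality from the base case
`dim ker loc + dim L ≤ dim H'`: `dim loc⁻¹(L) ≤ dim loc'⁻¹(L^⊥)`. -/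
theorem gw_min_abstract [FiniteDimensional k H']
    (loc : H →ₗ[k] P) (loc' : H' →ₗ[k] P') (B : P →ₗ[k] P' →ₗ[k] k)
    (hrec : ∀ x y, B (loc x) (loc' y) = 0)
    (L : Submodule k P) [FiniteDimensional k L] [FiniteDimensional k (LinearMap.ker loc)]
    (hbase : finrank k (LinearMap.ker loc) + finrank k L ≤ finrank k H') :
    finrank k (L.comap loc) ≤ finrank k ((perp B L).comap loc') := by
  have := gw_abstract loc loc' B hrec L
  omega

end GW

section Comparison

variable {X U D : Type*} [AddCommGroup X] [Module k X] [AddCommGroup U] [Module k U]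
  [AddCommGroup D] [Module k D]

/-- **Abstract comparison step**: if `u : X → U` and the injective `lam : D → Dual U` satisfy
`lam d (u x) = 0`, then `dim X + dim D ≤ dim ker u + dim U`. -/
theorem comparison_abstract [FiniteDimensional k U]
    (u : X →ₗ[k] U) (lam : D →ₗ[k] Dual k U) (hlam : Function.Injective lam)
    (hrec : ∀ d x, lam d (u x) = 0) [FiniteDimensional k (LinearMap.ker u)] :
    finrank k X + finrank k D ≤ finrank k (LinearMap.ker u) + finrank k U := by
  classical
  have hfinX : FiniteDimensional k X := finiteDimensional_of_ker_range u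
  have hrn : finrank k (LinearMap.range u) + finrank k (LinearMap.ker u) = finrank k X :=
    LinearMap.finrank_range_add_finrank_ker u
  have hfinD : FiniteDimensional k D := FiniteDimensional.of_injective lam hlam
  have hD : finrank k (LinearMap.range lam) = finrank k D :=
    LinearMap.finrank_range_of_inj hlam
  have hle : LinearMap.range lam ≤ (LinearMap.range u).dualAnnihilator := by
    rintro _ ⟨d, rfl⟩
    rw [Submodule.mem_dualAnnihilator]
    rintro _ ⟨x, rfl⟩
    exact hrec d x
  have hann : finrank k (LinearMap.range u) + finrank k (LinearMap.range u).dualAnnihilator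
      = finrank k U := Subspace.finrank_add_finrank_dualAnnihilator_eq _
  have hmono : finrank k (LinearMap.range lam) ≤ finrank k (LinearMap.range u).dualAnnihilator :=
    Submodule.finrank_mono hle
  omega

/-- Bookkeeping for the tangent bound: comparison + minimal inequality + `dim U ≤ n`. -/
theorem tangent_le_card [FiniteDimensional k U]
    (u : X →ₗ[k] U) (lam : D →ₗ[k] Dual k U) (hlam : Function.Injective lam)
    (hrec : ∀ d x, lam d (u x) = 0) [FiniteDimensional k (LinearMap.ker u)]
    (hmin : finrank k (LinearMap.ker u) ≤ finrank k D) {n : ℕ} (hU : finrank k U ≤ n) :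
    finrank k X ≤ n := by
  have := comparison_abstract u lam hlam hrec
  omega

end Comparison

end Fermat.Agent.S56.H831

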